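import Mathlib
import Fermat.Agent.MU.S48.Cheb.Defs
import Fermat.Agent.MU.Lib.FrobDensity.Final

section MergeWrap_S48_Cheb_DeuringCount -- from S48/Cheb/DeuringCount.lean

/-!
# S48 P5 seat (G), part 1: Deuring's count (helper61)

`L/ℚ` Galois with group `G`, `g ∈ G`, `p` a prime unramified in `L`.  The set `X` of the primes
`P` of `𝓞 L` over `p` at which `g` is a Frobenius element (`g x ≡ x ^ p mod P`) is one orbit of
the centraliser `C_G(g)`, and the stabiliser of a point contains `⟨g⟩`; hence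
      `#X · ord(g) ≤ |C_G(g)|`.
-/

set_option autoImplicit false
set_option linter.unusedSectionVars false
set_option linter.style.haveILetI false

open NumberField
open scoped Pointwise

namespace Fermat.Agent.S48Cheb

section count

variable (L : Type) [Field L] [NumberField L]

/-- The primes `P` of `𝓞 L` over `p` at which `g` is a Frobenius element. -/
def FrobSet (g : L ≃ₐ[ℚ] L) (p : ℕ) : Set (Ideal (𝓞 L)) :=
  {P | P.IsPrime ∧ (p : 𝓞 L) ∈ P ∧ ∀ x : 𝓞 L, g • x - x ^ p ∈ P}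

variable {L}

theorem deu_under_int {p : ℕ} (hp : p.Prime) {P : Ideal (𝓞 L)} (hP : P.IsPrime)
    (hpP : (p : 𝓞 L) ∈ P) : P.under ℤ = Ideal.span {(p : ℤ)} := by
  have : Fact p.Prime := ⟨hp⟩
  have hmax : (Ideal.span {(p : ℤ)}).IsMaximal := Int.ideal_span_isMaximal_of_prime p
  have hle : Ideal.span {(p : ℤ)} ≤ P.under ℤ := by
    rw [Ideal.span_singleton_le_iff_mem, Ideal.under_def, Ideal.mem_comap]
    simpa using hpP
  have hne : P.under ℤ ≠ ⊤ := by
    have : (P.under ℤ).IsPrime := inferInstance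
    exact this.ne_top
  exact (hmax.eq_of_le hne hle).symm

theorem deu_card_quot_under {p : ℕ} (hp : p.Prime) {P : Ideal (𝓞 L)} (hP : P.IsPrime)
    (hpP : (p : 𝓞 L) ∈ P) : Nat.card (ℤ ⧸ P.under ℤ) = p := by
  rw [deu_under_int hp hP hpP]
  exact Int.card_ideal_quot p

theorem deu_ne_bot {p : ℕ} (hp : p.Prime) {P : Ideal (𝓞 L)} (hpP : (p : 𝓞 L) ∈ P) : P ≠ ⊥ := by
  rintro rfl
  have : (p : 𝓞 L) = 0 := by simpa using hpP
  exact hp.ne_zero (by exact_mod_cast this)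

variable [IsGalois ℚ L]

theorem deu_isArithFrobAt_iff {p : ℕ} (hp : p.Prime) {P : Ideal (𝓞 L)} (hP : P.IsPrime)
    (hpP : (p : 𝓞 L) ∈ P) (g : L ≃ₐ[ℚ] L) :
    IsArithFrobAt ℤ g P ↔ ∀ x : 𝓞 L, g • x - x ^ p ∈ P := by
  constructor
  · intro h x
    have := h x
    rw [deu_card_quot_under hp hP hpP] at this
    exact this
  · intro h x
    rw [deu_card_quot_under hp hP hpP]
    exact h x

/-- uniqueness of the Frobenius element at an unramified prime. -/
theorem deu_frob_unique {p : ℕ} (hp : p.Prime) {P : Ideal (𝓞 L)} (hP : P.IsPrime)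
    (hpP : (p : 𝓞 L) ∈ P) (hunr : P.ramificationIdx ℤ = 1) {g g' : L ≃ₐ[ℚ] L}
    (hg : ∀ x : 𝓞 L, g • x - x ^ p ∈ P) (hg' : ∀ x : 𝓞 L, g' • x - x ^ p ∈ P) : g = g' := by
  have H := (deu_isArithFrobAt_iff hp hP hpP g).mpr hg
  have H' := (deu_isArithFrobAt_iff hp hP hpP g').mpr hg'
  have hmem := IsArithFrobAt.mul_inv_mem_inertia H H'
  have hprime : (P.under ℤ).IsPrime := inferInstance
  have hlies : P.LiesOver (P.under ℤ) := ⟨rfl⟩
  have hne : P.under ℤ ≠ ⊥ := by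
    intro h
    exact deu_ne_bot hp hpP (Ideal.eq_bot_of_comap_eq_bot h)
  have hmax : (P.under ℤ).IsMaximal := hprime.isMaximal hne
  have hcard : Nat.card (P.inertia (L ≃ₐ[ℚ] L)) = 1 := by
    rw [Ideal.card_inertia_eq_ramificationIdxIn (P.under ℤ) P,
      Ideal.ramificationIdxIn_eq_ramificationIdx (P.under ℤ) P (L ≃ₐ[ℚ] L)]
    exact hunr
  have hbot : P.inertia (L ≃ₐ[ℚ] L) = ⊥ := Subgroup.card_eq_one.mp hcard
  rw [hbot, Subgroup.mem_bot] at hmem
  exact mul_inv_eq_one.mp hmem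

/-- the centraliser of `g` maps `FrobSet g p` to itself. -/
theorem deu_smul_mem {p : ℕ} (hp : p.Prime) {g σ : L ≃ₐ[ℚ] L} (hσ : σ * g = g * σ)
    {P : Ideal (𝓞 L)} (hP : P ∈ FrobSet L g p) : σ • P ∈ FrobSet L g p := by
  obtain ⟨hPp, hpP, hfrob⟩ := hP
  have hσP : (σ • P).IsPrime := by
    rw [Ideal.pointwise_smul_eq_comap]
    exact Ideal.comap_isPrime _ P
  have hpσP : (p : 𝓞 L) ∈ σ • P := by
    rw [Ideal.pointwise_smul_eq_comap, Ideal.mem_comap, map_natCast]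
    exact hpP
  refine ⟨hσP, hpσP, ?_⟩
  have H := (deu_isArithFrobAt_iff hp hPp hpP g).mpr hfrob
  have H2 := H.conj σ
  have h3 : σ * g * σ⁻¹ = g := by rw [hσ, mul_assoc, mul_inv_cancel, mul_one]
  rw [h3] at H2
  exact (deu_isArithFrobAt_iff hp hσP hpσP g).mp H2

/-- `FrobSet g p` is one orbit of the centraliser of `g`, for `p` unramified. -/
theorem deu_exists_centralizer_smul {p : ℕ} (hp : p.Prime)
    (hunr : ∀ P : Ideal (𝓞 L), P.IsPrime → (p : 𝓞 L) ∈ P → P.ramificationIdx ℤ = 1)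
    {g : L ≃ₐ[ℚ] L} {P₀ P : Ideal (𝓞 L)} (hP₀ : P₀ ∈ FrobSet L g p) (hP : P ∈ FrobSet L g p) :
    ∃ σ : L ≃ₐ[ℚ] L, σ * g = g * σ ∧ P = σ • P₀ := by
  obtain ⟨hP₀p, hpP₀, hfrob₀⟩ := hP₀
  obtain ⟨hPp, hpP, hfrob⟩ := hP
  have hunder : P₀.under ℤ = P.under ℤ := by
    rw [deu_under_int hp hP₀p hpP₀, deu_under_int hp hPp hpP]
  obtain ⟨σ, hσ⟩ := Algebra.IsInvariant.exists_smul_of_under_eq ℤ (𝓞 L) (L ≃ₐ[ℚ] L) P₀ P hunder
  refine ⟨σ, ?_, hσ⟩
  have H := (deu_isArithFrobAt_iff hp hP₀p hpP₀ g).mpr hfrob₀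
  have H2 := H.conj σ
  rw [← hσ] at H2
  have h3 := (deu_isArithFrobAt_iff hp hPp hpP (σ * g * σ⁻¹)).mp H2
  have h4 : σ * g * σ⁻¹ = g := deu_frob_unique hp hPp hpP (hunr P hPp hpP) h3 hfrob
  calc σ * g = σ * g * σ⁻¹ * σ := by rw [inv_mul_cancel_right]
    _ = g * σ := by rw [h4]

/-- `g` stabilises the primes at which it is a Frobenius element. -/
theorem deu_smul_self {p : ℕ} (hp : p.Prime) {g : L ≃ₐ[ℚ] L} {P : Ideal (𝓞 L)}
    (hP : P ∈ FrobSet L g p) : g • P = P := by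
  obtain ⟨hPp, hpP, hfrob⟩ := hP
  have H := (deu_isArithFrobAt_iff hp hPp hpP g).mpr hfrob
  exact MulAction.mem_stabilizer_iff.mp H.mem_stabilizer

theorem deu_zpowers_smul {p : ℕ} (hp : p.Prime) {g : L ≃ₐ[ℚ] L} {P : Ideal (𝓞 L)}
    (hP : P ∈ FrobSet L g p) {z : L ≃ₐ[ℚ] L} (hz : z ∈ Subgroup.zpowers g) : z • P = P := by
  have hle : Subgroup.zpowers g ≤ MulAction.stabilizer (L ≃ₐ[ℚ] L) P := by
    rw [Subgroup.zpowers_le]
    exact MulAction.mem_stabilizer_iff.mpr (deu_smul_self hp hP)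
  exact MulAction.mem_stabilizer_iff.mp (hle hz)

theorem deu_finite_frobSet {p : ℕ} (hp : p.Prime) (g : L ≃ₐ[ℚ] L) : (FrobSet L g p).Finite := by
  have h1 : (Ideal.primesOver (Ideal.span {(p : ℤ)}) (𝓞 L)).Finite :=
    Algebra.QuasiFinite.finite_primesOver (R := ℤ) (S := 𝓞 L) _
  refine h1.subset ?_
  rintro P ⟨hPp, hpP, -⟩
  exact ⟨hPp, ⟨(deu_under_int hp hPp hpP).symm⟩⟩

/-- **Deuring's count** (upper bound). -/
theorem deu_card_frobSet_mul_le {p : ℕ} (hp : p.Prime)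
    (hunr : ∀ P : Ideal (𝓞 L), P.IsPrime → (p : 𝓞 L) ∈ P → P.ramificationIdx ℤ = 1)
    (g : L ≃ₐ[ℚ] L) :
    Nat.card (FrobSet L g p) * orderOf g
      ≤ Nat.card (Subgroup.centralizer ({g} : Set (L ≃ₐ[ℚ] L))) := by
  classical
  by_cases hne : (FrobSet L g p).Nonempty
  · obtain ⟨P₀, hP₀⟩ := hne
    have hex : ∀ P : FrobSet L g p, ∃ σ : L ≃ₐ[ℚ] L, σ * g = g * σ ∧ (P : Ideal (𝓞 L)) = σ • P₀ :=
      fun P => deu_exists_centralizer_smul hp hunr hP₀ P.2
    choose s hs1 hs2 using hex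
    have hcent : ∀ P : FrobSet L g p, ∀ z : Subgroup.zpowers g,
        s P * (z : L ≃ₐ[ℚ] L) ∈ Subgroup.centralizer ({g} : Set (L ≃ₐ[ℚ] L)) := by
      intro P z
      rw [Subgroup.mem_centralizer_singleton_iff]
      obtain ⟨k, hk⟩ := Subgroup.mem_zpowers_iff.mp z.2
      have hzg : (z : L ≃ₐ[ℚ] L) * g = g * z := by
        rw [← hk]
        exact ((Commute.refl g).zpow_left k).eq
      calc s P * ↑z * g = s P * (↑z * g) := mul_assoc _ _ _
        _ = s P * (g * ↑z) := by rw [hzg]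
        _ = s P * g * ↑z := (mul_assoc _ _ _).symm
        _ = g * s P * ↑z := by rw [hs1 P]
        _ = g * (s P * ↑z) := mul_assoc _ _ _
    let f : FrobSet L g p × Subgroup.zpowers g →
        Subgroup.centralizer ({g} : Set (L ≃ₐ[ℚ] L)) := fun x => ⟨s x.1 * x.2, hcent x.1 x.2⟩
    have hf : Function.Injective f := by
      rintro ⟨P, z⟩ ⟨P', z'⟩ h
      have h1 : s P * (z : L ≃ₐ[ℚ] L) = s P' * (z' : L ≃ₐ[ℚ] L) := congrArg Subtype.val h
      have h2 : (P : Ideal (𝓞 L)) = (P' : Ideal (𝓞 L)) := by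
        calc (P : Ideal (𝓞 L)) = s P • P₀ := hs2 P
          _ = s P • ((z : L ≃ₐ[ℚ] L) • P₀) := by rw [deu_zpowers_smul hp hP₀ z.2]
          _ = (s P * (z : L ≃ₐ[ℚ] L)) • P₀ := (mul_smul _ _ _).symm
          _ = (s P' * (z' : L ≃ₐ[ℚ] L)) • P₀ := by rw [h1]
          _ = s P' • ((z' : L ≃ₐ[ℚ] L) • P₀) := mul_smul _ _ _
          _ = s P' • P₀ := by rw [deu_zpowers_smul hp hP₀ z'.2]
          _ = (P' : Ideal (𝓞 L)) := (hs2 P').symm
      have h3 : P = P' := Subtype.ext h2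
      subst h3
      have h4 : (z : L ≃ₐ[ℚ] L) = (z' : L ≃ₐ[ℚ] L) := mul_left_cancel h1
      rw [Subtype.ext h4]
    haveI : Finite (FrobSet L g p) := (deu_finite_frobSet hp g).to_subtype
    have h5 := Nat.card_le_card_of_injective f hf
    rw [Nat.card_prod, Nat.card_zpowers] at h5
    exact h5
  · rw [Set.not_nonempty_iff_eq_empty] at hne
    rw [hne]
    simp

end count

end Fermat.Agent.S48Cheb
end MergeWrap_S48_Cheb_DeuringCount

section MergeWrap_S48_Cheb_Deuring -- from S48/Cheb/Deuring.lean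

/-!
# S48 P5 seat (G): Deuring's reduction (helper61)

`galoisCheb_of : CyclicCheb → GaloisCheb`.

`E = IntermediateField.fixedField (Subgroup.zpowers g)`, `g_E ∈ Gal(L/E)` the element
corresponding to `g`, `m = orderOf g = [L:E]`.  (F) gives
`LowerLim (frobCount E L g_E + frobCount E L g_E⁻¹) (2/m)`.  Pointwise, for `p` unramified in `L`,
`m * frobCount E L g_E p ≤ |C_G(g)| * [Hit L g p]`:
* `𝔮 ↦ P` (a prime over `𝔮` at which `g_E` is a Frobenius) is injective into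
  `FrobSet L g p` (`𝔮 = P ∩ 𝓞 E`);
* `#(FrobSet L g p) * m ≤ |C_G(g)|` (`deu_card_frobSet_mul_le`, `S48/Cheb/DeuringCount.lean`).
-/

set_option autoImplicit false
set_option linter.unusedSectionVars false
set_option linter.style.haveILetI false

open NumberField
open scoped Pointwise

namespace Fermat.Agent.S48Cheb

open Fermat.Agent.FrobDensity (idealCount)

section pointwise

variable {L : Type} [Field L] [NumberField L] [IsGalois ℚ L]

theorem deu_hit_iff (g : L ≃ₐ[ℚ] L) (p : ℕ) : Hit L g p ↔ (FrobSet L g p).Nonempty :=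
  Iff.rfl

/-- `frobCount ≤ #FrobSet`: a prime of `E` of norm `p` with Frobenius `h` is determined by a
prime of `L` above it at which `g'` (`= h` on `L`) is a Frobenius. -/
theorem deu_frobCount_le (E : IntermediateField ℚ L) (h : L ≃ₐ[E] L) (g' : L ≃ₐ[ℚ] L)
    (hh : ∀ x : L, h x = g' x) {p : ℕ} (hp : p.Prime) :
    frobCount E L h p ≤ Nat.card (FrobSet L g' p) := by
  classical
  unfold frobCount
  have hex : ∀ 𝔮 : {𝔮 : Ideal (𝓞 E) // Ideal.absNorm 𝔮 = p ∧
      ∃ P : Ideal (𝓞 L), P.IsPrime ∧ P.LiesOver 𝔮 ∧ ∀ x : 𝓞 L, h • x - x ^ p ∈ P},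
      ∃ P : Ideal (𝓞 L), P.IsPrime ∧ P.LiesOver 𝔮.1 ∧ ∀ x : 𝓞 L, h • x - x ^ p ∈ P :=
    fun 𝔮 => 𝔮.2.2
  choose P hP1 hP2 hP3 using hex
  have hmem : ∀ 𝔮, P 𝔮 ∈ FrobSet L g' p := by
    intro 𝔮
    refine ⟨hP1 𝔮, ?_, fun x => ?_⟩
    · have h1 : ((p : ℕ) : 𝓞 E) ∈ 𝔮.1 := by
        have := Ideal.absNorm_mem 𝔮.1
        rwa [𝔮.2.1] at this
      have h2 := (hP2 𝔮).over
      rw [h2, Ideal.under_def, Ideal.mem_comap] at h1
      simpa using h1
    · have h3 : h • x = g' • x := by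
        apply Subtype.ext
        exact hh (x : L)
      rw [← h3]
      exact hP3 𝔮 x
  let f : {𝔮 : Ideal (𝓞 E) // Ideal.absNorm 𝔮 = p ∧
      ∃ P : Ideal (𝓞 L), P.IsPrime ∧ P.LiesOver 𝔮 ∧ ∀ x : 𝓞 L, h • x - x ^ p ∈ P} →
      FrobSet L g' p := fun 𝔮 => ⟨P 𝔮, hmem 𝔮⟩
  have hf : Function.Injective f := by
    intro 𝔮 𝔮' hqq
    have h1 : P 𝔮 = P 𝔮' := congrArg Subtype.val hqq
    apply Subtype.ext
    rw [(hP2 𝔮).over, (hP2 𝔮').over, h1]
  haveI : Finite (FrobSet L g' p) := (deu_finite_frobSet hp g').to_subtype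
  exact Nat.card_le_card_of_injective f hf

/-- the pointwise inequality of Deuring's reduction. -/
theorem deu_pointwise (E : IntermediateField ℚ L) (h : L ≃ₐ[E] L) (g' : L ≃ₐ[ℚ] L)
    (hh : ∀ x : L, h x = g' x) {p : ℕ} (hp : p.Prime)
    (hunr : ∀ P : Ideal (𝓞 L), P.IsPrime → (p : 𝓞 L) ∈ P → P.ramificationIdx ℤ = 1) :
    (orderOf g' : ℝ) * (frobCount E L h p : ℝ)
      ≤ (Nat.card (Subgroup.centralizer ({g'} : Set (L ≃ₐ[ℚ] L))) : ℝ) *
        (open scoped Classical in if Hit L g' p then (1 : ℝ) else 0) := by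
  classical
  have h1 := deu_frobCount_le E h g' hh hp
  have h2 := deu_card_frobSet_mul_le hp hunr g'
  by_cases hhit : Hit L g' p
  · rw [if_pos hhit, mul_one]
    have h3 : orderOf g' * frobCount E L h p
        ≤ Nat.card (Subgroup.centralizer ({g'} : Set (L ≃ₐ[ℚ] L))) := by
      calc orderOf g' * frobCount E L h p ≤ orderOf g' * Nat.card (FrobSet L g' p) :=
            Nat.mul_le_mul_left _ h1
        _ = Nat.card (FrobSet L g' p) * orderOf g' := Nat.mul_comm _ _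
        _ ≤ _ := h2
    exact_mod_cast h3
  · rw [if_neg hhit, mul_zero]
    have h3 : FrobSet L g' p = ∅ := by
      rw [← Set.not_nonempty_iff_eq_empty]
      exact hhit
    have h4 : frobCount E L h p = 0 := by
      have : Nat.card (FrobSet L g' p) = 0 := by
        rw [h3]
        simp
      omega
    rw [h4]
    simp

theorem deu_frobCount_le_finrank (E : IntermediateField ℚ L) (h : L ≃ₐ[E] L) {p : ℕ}
    (hp : p.Prime) : frobCount E L h p ≤ Module.finrank ℚ E := by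
  refine le_trans ?_ (Fermat.Agent.FrobDensity.idealCount_le_finrank (K := E) hp)
  unfold frobCount Fermat.Agent.FrobDensity.idealCount
  haveI : Finite {I : Ideal (𝓞 E) // Ideal.absNorm I = p} :=
    Ideal.finite_setOfPred_absNorm_eq p
  exact Nat.card_le_card_of_injective
    (fun 𝔮 => (⟨𝔮.1, 𝔮.2.1⟩ : {I : Ideal (𝓞 E) // Ideal.absNorm I = p}))
    (fun a b hab => Subtype.ext (by
      have := congrArg (fun z : {I : Ideal (𝓞 E) // Ideal.absNorm I = p} => z.1) hab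
      exact this))

end pointwise

/-! ### comparison of the lower densities -/

section compare

open Fermat.Agent.FrobDensity (summable_weight_mul_rpow)

theorem deu_rpow_nonneg (p : Nat.Primes) (s : ℝ) : 0 ≤ ((p : ℕ) : ℝ) ^ (-s) :=
  Real.rpow_nonneg (Nat.cast_nonneg _) _

theorem deu_rpow_le_one (p : Nat.Primes) {s : ℝ} (hs : 0 ≤ s) : ((p : ℕ) : ℝ) ^ (-s) ≤ 1 := by
  have h1 : (1 : ℝ) ≤ ((p : ℕ) : ℝ) := by exact_mod_cast p.2.one_lt.le
  exact Real.rpow_le_one_of_one_le_of_nonpos h1 (by linarith)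

/-- the contribution of a finite set of primes is bounded. -/
theorem deu_tsum_finite_le (T : Finset ℕ) {K : ℝ} (hK : 0 ≤ K) {s : ℝ} (hs : 1 < s) :
    Summable (fun p : Nat.Primes =>
      (open scoped Classical in if (p : ℕ) ∈ T then K else 0) * ((p : ℕ) : ℝ) ^ (-s)) ∧
    ∑' p : Nat.Primes,
      (open scoped Classical in if (p : ℕ) ∈ T then K else 0) * ((p : ℕ) : ℝ) ^ (-s)
      ≤ K * T.card := by
  classical
  have hsum : Summable (fun p : Nat.Primes =>
      (if (p : ℕ) ∈ T then K else 0) * ((p : ℕ) : ℝ) ^ (-s)) := by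
    refine summable_weight_mul_rpow ⟨K, fun p => ?_⟩ hs
    split_ifs
    · rw [abs_of_nonneg hK]
    · rw [abs_zero]
      exact hK
  refine ⟨hsum, ?_⟩
  refine hsum.tsum_le_of_sum_le fun F => ?_
  calc ∑ p ∈ F, (if (p : ℕ) ∈ T then K else 0) * ((p : ℕ) : ℝ) ^ (-s)
      ≤ ∑ p ∈ F, (if (p : ℕ) ∈ T then K else 0) := by
        refine Finset.sum_le_sum fun p _ => ?_
        have h1 := deu_rpow_le_one p (by linarith : (0 : ℝ) ≤ s)
        have h2 : (0 : ℝ) ≤ (if (p : ℕ) ∈ T then K else 0) := by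
          split_ifs
          · exact hK
          · exact le_rfl
        calc (if (p : ℕ) ∈ T then K else 0) * ((p : ℕ) : ℝ) ^ (-s)
            ≤ (if (p : ℕ) ∈ T then K else 0) * 1 := mul_le_mul_of_nonneg_left h1 h2
          _ = _ := mul_one _
    _ = ∑ p ∈ F.filter (fun p : Nat.Primes => (p : ℕ) ∈ T), K := by
        rw [Finset.sum_filter]
    _ = ((F.filter (fun p : Nat.Primes => (p : ℕ) ∈ T)).card : ℝ) * K := by
        rw [Finset.sum_const, nsmul_eq_mul]
    _ ≤ (T.card : ℝ) * K := by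
        refine mul_le_mul_of_nonneg_right ?_ hK
        have : (F.filter (fun p : Nat.Primes => (p : ℕ) ∈ T)).card ≤ T.card := by
          refine Finset.card_le_card_of_injOn (fun p : Nat.Primes => (p : ℕ)) ?_ ?_
          · intro p hp
            exact (Finset.mem_filter.mp hp).2
          · intro p _ q _ hpq
            exact Subtype.ext hpq
        exact_mod_cast this
    _ = K * T.card := mul_comm _ _

/-- comparison: `m wE ≤ c w` off a finite set of primes. -/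
theorem deu_lowerSharp_of_le {wE w : Nat.Primes → ℝ} {m c K : ℝ} (hm : 0 < m) (hc : 0 < c)
    (T : Finset ℕ) (hT : ∀ p : Nat.Primes, (p : ℕ) ∉ T → m * wE p ≤ c * w p)
    (hwE0 : ∀ p, 0 ≤ wE p) (hwEK : ∀ p, wE p ≤ K) (hw0 : ∀ p, 0 ≤ w p) (hwB : ∀ p, w p ≤ 2)
    {a : ℝ} (h : LowerSharp wE a) : LowerSharp w (a * m / c) := by
  classical
  obtain ⟨B, δ, hδ, hB⟩ := h
  have hK : 0 ≤ K := (hwE0 ⟨2, Nat.prime_two⟩).trans (hwEK _)
  refine ⟨m / c * (B + K * T.card), δ, hδ, fun s hs hsδ => ?_⟩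
  have h1 := hB s hs hsδ
  have hswE : Summable fun p : Nat.Primes => wE p * ((p : ℕ) : ℝ) ^ (-s) :=
    summable_weight_mul_rpow ⟨K, fun p => by rw [abs_of_nonneg (hwE0 p)]; exact hwEK p⟩ hs
  have hsw : Summable fun p : Nat.Primes => w p * ((p : ℕ) : ℝ) ^ (-s) :=
    summable_weight_mul_rpow ⟨2, fun p => by rw [abs_of_nonneg (hw0 p)]; exact hwB p⟩ hs
  obtain ⟨hsT, hTle⟩ := deu_tsum_finite_le T hK hs
  have hpt : ∀ p : Nat.Primes, wE p * ((p : ℕ) : ℝ) ^ (-s)
      ≤ c / m * (w p * ((p : ℕ) : ℝ) ^ (-s))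
        + (if (p : ℕ) ∈ T then K else 0) * ((p : ℕ) : ℝ) ^ (-s) := by
    intro p
    have hx := deu_rpow_nonneg p s
    have hcm : 0 ≤ c / m := (div_pos hc hm).le
    by_cases hpT : (p : ℕ) ∈ T
    · rw [if_pos hpT]
      have h2 : wE p * ((p : ℕ) : ℝ) ^ (-s) ≤ K * ((p : ℕ) : ℝ) ^ (-s) :=
        mul_le_mul_of_nonneg_right (hwEK p) hx
      have h3 : 0 ≤ c / m * (w p * ((p : ℕ) : ℝ) ^ (-s)) :=
        mul_nonneg hcm (mul_nonneg (hw0 p) hx)
      linarith
    · rw [if_neg hpT, zero_mul, add_zero]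
      have h2 : wE p ≤ c / m * w p := by
        rw [div_mul_eq_mul_div, le_div_iff₀ hm]
        have := hT p hpT
        linarith
      calc wE p * ((p : ℕ) : ℝ) ^ (-s) ≤ (c / m * w p) * ((p : ℕ) : ℝ) ^ (-s) :=
            mul_le_mul_of_nonneg_right h2 hx
        _ = c / m * (w p * ((p : ℕ) : ℝ) ^ (-s)) := mul_assoc _ _ _
  have h4 : ∑' p : Nat.Primes, wE p * ((p : ℕ) : ℝ) ^ (-s)
      ≤ c / m * ∑' p : Nat.Primes, w p * ((p : ℕ) : ℝ) ^ (-s) + K * T.card := by
    calc ∑' p : Nat.Primes, wE p * ((p : ℕ) : ℝ) ^ (-s)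
        ≤ ∑' p : Nat.Primes, (c / m * (w p * ((p : ℕ) : ℝ) ^ (-s))
            + (if (p : ℕ) ∈ T then K else 0) * ((p : ℕ) : ℝ) ^ (-s)) :=
          hswE.tsum_le_tsum hpt ((hsw.mul_left _).add hsT)
      _ = c / m * ∑' p : Nat.Primes, w p * ((p : ℕ) : ℝ) ^ (-s)
            + ∑' p : Nat.Primes, (if (p : ℕ) ∈ T then K else 0) * ((p : ℕ) : ℝ) ^ (-s) := by
          rw [(hsw.mul_left _).tsum_add hsT, tsum_mul_left]
      _ ≤ _ := by linarith
  have h5 : a * Real.log (1 / (s - 1)) - B - K * T.card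
      ≤ c / m * ∑' p : Nat.Primes, w p * ((p : ℕ) : ℝ) ^ (-s) := by linarith
  have hmc : 0 < m / c := div_pos hm hc
  have h6 := mul_le_mul_of_nonneg_left h5 hmc.le
  have h7 : m / c * (c / m * ∑' p : Nat.Primes, w p * ((p : ℕ) : ℝ) ^ (-s))
      = ∑' p : Nat.Primes, w p * ((p : ℕ) : ℝ) ^ (-s) := by
    field_simp
  rw [h7] at h6
  have h8 : a * m / c * Real.log (1 / (s - 1)) - m / c * (B + K * T.card)
      = m / c * (a * Real.log (1 / (s - 1)) - B - K * T.card) := by ring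
  rw [h8]
  exact h6

end compare

/-! ### the assembly -/

section assembly

variable {L : Type} [Field L] [NumberField L] [IsGalois ℚ L]

theorem deu_centralizer_inv (g : L ≃ₐ[ℚ] L) :
    Subgroup.centralizer ({g⁻¹} : Set (L ≃ₐ[ℚ] L))
      = Subgroup.centralizer ({g} : Set (L ≃ₐ[ℚ] L)) := by
  ext σ
  rw [Subgroup.mem_centralizer_singleton_iff, Subgroup.mem_centralizer_singleton_iff]
  constructor
  · intro h
    calc σ * g = g * (g⁻¹ * σ) * g := by rw [mul_inv_cancel_left]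
      _ = g * (σ * g⁻¹) * g := by rw [h]
      _ = g * σ := by rw [mul_assoc, inv_mul_cancel_right]
  · intro h
    calc σ * g⁻¹ = g⁻¹ * (g * σ) * g⁻¹ := by rw [inv_mul_cancel_left]
      _ = g⁻¹ * (σ * g) * g⁻¹ := by rw [h]
      _ = g⁻¹ * σ := by rw [mul_assoc, mul_inv_cancel_right]

theorem galoisCheb_of (hF : CyclicCheb) : GaloisCheb := by
  classical
  intro L _ _ _ g S ε hε
  -- the fixed field of `⟨g⟩` and the generator of `Gal(L/E)`
  set E : IntermediateField ℚ L := IntermediateField.fixedField (Subgroup.zpowers g) with hE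
  set e : Subgroup.zpowers g ≃* (L ≃ₐ[E] L) :=
    IntermediateField.subgroupEquivAlgEquiv (Subgroup.zpowers g) with he
  set gE : L ≃ₐ[E] L := e ⟨g, Subgroup.mem_zpowers g⟩ with hgE
  have hgE_apply : ∀ x : L, gE x = g x := fun x => rfl
  have hgEinv_apply : ∀ x : L, gE⁻¹ x = g⁻¹ x := by
    intro x
    apply gE.injective
    have h1 : gE (gE⁻¹ x) = x := by
      show (gE * gE⁻¹) x = x
      rw [mul_inv_cancel]
      rfl
    rw [h1, hgE_apply]
    show x = (g * g⁻¹) x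
    rw [mul_inv_cancel]
    rfl
  have hcyc : ∀ h : L ≃ₐ[E] L, h ∈ Subgroup.zpowers gE := by
    intro h
    obtain ⟨z, rfl⟩ := e.surjective h
    obtain ⟨k, hk⟩ := Subgroup.mem_zpowers_iff.mp z.2
    rw [Subgroup.mem_zpowers_iff]
    refine ⟨k, ?_⟩
    rw [hgE, ← map_zpow]
    congr 1
    exact Subtype.ext hk
  have hm0 : 0 < orderOf g := orderOf_pos g
  have hfin : Module.finrank E L = orderOf g := by
    rw [hE, IntermediateField.finrank_fixedField_eq_card, Nat.card_zpowers]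
  have hc0 : 0 < Nat.card (Subgroup.centralizer ({g} : Set (L ≃ₐ[ℚ] L))) := Nat.card_pos
  set m : ℝ := (orderOf g : ℝ) with hmdef
  set c : ℝ := (Nat.card (Subgroup.centralizer ({g} : Set (L ≃ₐ[ℚ] L))) : ℝ) with hcdef
  have hm : 0 < m := by
    rw [hmdef]
    exact_mod_cast hm0
  have hc : 0 < c := by
    rw [hcdef]
    exact_mod_cast hc0
  -- the input
  have h1 := hF E L gE hcyc (ε * c / m) (by positivity)
  rw [hfin] at h1
  -- the bad primes
  have hram := Fermat.Agent.FrobDensity.finite_ramified_int L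
  set T : Finset ℕ := S ∪ hram.toFinset with hTdef
  have hunr : ∀ p : Nat.Primes, (p : ℕ) ∉ T →
      ∀ P : Ideal (𝓞 L), P.IsPrime → ((p : ℕ) : 𝓞 L) ∈ P → P.ramificationIdx ℤ = 1 := by
    intro p hpT P hP hpP
    by_contra hne
    apply hpT
    rw [hTdef, Finset.mem_union]
    right
    rw [Set.Finite.mem_toFinset]
    exact ⟨p.2, P, hP, hpP, hne⟩
  have key := deu_lowerSharp_of_le (m := m) (c := c) (K := 2 * (Module.finrank ℚ E : ℝ))
    (wE := fun p => (frobCount E L gE p : ℝ) + (frobCount E L gE⁻¹ p : ℝ))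
    (w := fun p => (if (p : ℕ) ∉ S ∧ Hit L g p then (1 : ℝ) else 0) +
      (if (p : ℕ) ∉ S ∧ Hit L g⁻¹ p then (1 : ℝ) else 0)) hm hc T ?_ ?_ ?_ ?_ ?_ h1
  · have h2 : (2 / m - ε * c / m) * m / c = 2 / c - ε := by
      field_simp
    rw [h2] at key
    exact key
  · -- the pointwise inequality
    intro p hpT
    have hpS : (p : ℕ) ∉ S := fun h => hpT (by rw [hTdef]; exact Finset.mem_union_left _ h)
    have h3 := deu_pointwise E gE g hgE_apply p.2 (hunr p hpT)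
    have h4 := deu_pointwise E gE⁻¹ g⁻¹ hgEinv_apply p.2 (hunr p hpT)
    rw [orderOf_inv, deu_centralizer_inv] at h4
    have h5 : (if (p : ℕ) ∉ S ∧ Hit L g p then (1 : ℝ) else 0)
        = (if Hit L g p then (1 : ℝ) else 0) := by
      by_cases hh : Hit L g p <;> simp [hh, hpS]
    have h6 : (if (p : ℕ) ∉ S ∧ Hit L g⁻¹ p then (1 : ℝ) else 0)
        = (if Hit L g⁻¹ p then (1 : ℝ) else 0) := by
      by_cases hh : Hit L g⁻¹ p <;> simp [hh, hpS]
    simp only [h5, h6]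
    have h7 : m * ((frobCount E L gE p : ℝ) + (frobCount E L gE⁻¹ p : ℝ))
        = m * (frobCount E L gE p : ℝ) + m * (frobCount E L gE⁻¹ p : ℝ) := by ring
    rw [h7, mul_add]
    exact add_le_add (by convert h3 using 2) (by convert h4 using 2)
  · intro p
    positivity
  · intro p
    have h3 := deu_frobCount_le_finrank E gE p.2
    have h4 := deu_frobCount_le_finrank E gE⁻¹ p.2
    have h3' : (frobCount E L gE p : ℝ) ≤ (Module.finrank ℚ E : ℝ) := by exact_mod_cast h3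
    have h4' : (frobCount E L gE⁻¹ p : ℝ) ≤ (Module.finrank ℚ E : ℝ) := by exact_mod_cast h4
    linarith
  · intro p
    have h3 : (0 : ℝ) ≤ (if (p : ℕ) ∉ S ∧ Hit L g p then (1 : ℝ) else 0) := by
      split_ifs <;> norm_num
    have h4 : (0 : ℝ) ≤ (if (p : ℕ) ∉ S ∧ Hit L g⁻¹ p then (1 : ℝ) else 0) := by
      split_ifs <;> norm_num
    linarith
  · intro p
    have h3 : (if (p : ℕ) ∉ S ∧ Hit L g p then (1 : ℝ) else 0) ≤ 1 := by
      split_ifs <;> norm_num
    have h4 : (if (p : ℕ) ∉ S ∧ Hit L g⁻¹ p then (1 : ℝ) else 0) ≤ 1 := by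
      split_ifs <;> norm_num
    linarith

end assembly

end Fermat.Agent.S48Cheb
end MergeWrap_S48_Cheb_Deuring
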